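import Fermat.Agent.Wp.Lattice
import Mathlib.Analysis.SpecificLimits.Normed

/-!
# `℘'` on `ℤτ + ℤ` as a series over rows, behaviour as `τ → i∞`

These are `rowSum_eq`, `hasSum_rows`, `norm_derivWeierstrassP_real_sub_le` and
`norm_derivWeierstrassP_mul_le`.
-/

noncomputable section

open UpperHalfPlane hiding I
open Filter Topology Complex
open scoped PeriodPair Real Manifold

namespace Fermat.Agent.Wp

/-! ### Rows -/

/-- `∑ₙ (w + n)⁻³`. -/
def rowSum (w : ℂ) : ℂ := ∑' n : ℤ, ((w + n) ^ 3)⁻¹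

/-- `e^{2πiw}`. -/
def expTwoPi (w : ℂ) : ℂ := cexp (2 * π * I * w)

/-- `(-2πi)³/2 · e(1+e)/(1-e)³`. -/
def rowClosed (w : ℂ) : ℂ :=
  (-2 * π * I) ^ 3 / 2 * (expTwoPi w * (1 + expTwoPi w) / (1 - expTwoPi w) ^ 3)

/-- `|e ^ (2πiw)| = e ^ (-2π Im w)`. -/
theorem norm_expTwoPi (w : ℂ) : ‖expTwoPi w‖ = Real.exp (-(2 * π * w.im)) := by
  simp [expTwoPi, Complex.norm_exp]

/-- `e^{2πiw} = 1` exactly for integral `w`. -/
theorem expTwoPi_eq_one_iff (w : ℂ) : expTwoPi w = 1 ↔ ∃ n : ℤ, w = n := by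
  have h0 : (2 * π * I : ℂ) ≠ 0 := Complex.two_pi_I_ne_zero
  rw [expTwoPi, Complex.exp_eq_one_iff]
  refine exists_congr fun n => ⟨fun h => mul_left_cancel₀ h0 (by rw [h]; ring), fun h => ?_⟩
  rw [h]; ring

/-- `expTwoPi` turns negation into inversion. -/
theorem expTwoPi_neg (a : ℂ) : expTwoPi (-a) = (expTwoPi a)⁻¹ := by
  rw [expTwoPi, expTwoPi, ← Complex.exp_neg]; ring_nf

/-- `expTwoPi` has no zeros. -/
theorem expTwoPi_ne_zero (a : ℂ) : expTwoPi a ≠ 0 := Complex.exp_ne_zero _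

/-- For `|r| < 1` the sum of `n² r ^ n` is `r (1 + r) / (1 - r)³`. -/
theorem hasSum_sq_mul_geometric {r : ℂ} (hr : ‖r‖ < 1) :
    HasSum (fun n : ℕ => (n : ℂ) ^ 2 * r ^ n) (r * (1 + r) / (1 - r) ^ 3) := by
  have h2 := hasSum_choose_mul_geometric_of_norm_lt_one 2 hr
  have h1 := hasSum_coe_mul_geometric_of_norm_lt_one hr
  have h0 := hasSum_geometric_of_norm_lt_one hr
  have hne : (1 : ℂ) - r ≠ 0 := sub_ne_zero.mpr fun h => by simp [← h] at hr
  have h := ((h2.mul_left 2).sub (h1.mul_left 3)).sub (h0.mul_left 2)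
  convert! h using 1
  · funext n
    rw [Nat.cast_choose_two]
    push_cast
    ring
  · field_simp
    ring

/-! ### The closed formula -/

theorem rowSum_eq_of_im_pos {w : ℂ} (hw : 0 < w.im) : rowSum w = rowClosed w := by
  have h := EisensteinSeries.qExpansion_identity (k := 2) (by norm_num) ⟨w, hw⟩
  have hr : ‖expTwoPi w‖ < 1 := by
    rw [norm_expTwoPi, Real.exp_lt_one_iff, neg_lt_zero]
    exact mul_pos Real.two_pi_pos hw
  simp only [one_div, Nat.reduceAdd, Nat.factorial_two, Nat.cast_ofNat] at h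
  rw [rowSum, h, rowClosed, ← (hasSum_sq_mul_geometric hr).tsum_eq]
  rfl

theorem rowSum_neg (w : ℂ) : rowSum (-w) = -rowSum w := by
  rw [rowSum, rowSum, ← (Equiv.neg ℤ).tsum_eq, ← tsum_neg]
  refine tsum_congr fun n => ?_
  simp only [Equiv.neg_apply, Int.cast_neg]
  rw [← inv_neg, ← Odd.neg_pow (by decide : Odd 3)]
  ring_nf

theorem rowClosed_neg (w : ℂ) : rowClosed (-w) = -rowClosed w := by
  rw [rowClosed, rowClosed, expTwoPi_neg]
  have h := expTwoPi_ne_zero w
  rcases eq_or_ne (expTwoPi w) 1 with h1 | h1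
  · simp [h1]
  have h2 : 1 - expTwoPi w ≠ 0 := sub_ne_zero.mpr (Ne.symm h1)
  have h3 : expTwoPi w - 1 ≠ 0 := sub_ne_zero.mpr h1
  generalize expTwoPi w = e at *
  field_simp
  ring

theorem summable_inv_cube (x : ℂ) : Summable fun n : ℤ => ((x + n) ^ 3)⁻¹ := by
  have h := ((pairTau UpperHalfPlane.I).hasSum_sumInvPow (-x) (r := 3) (by norm_num)).summable
  have h' := h.comp_injective (i := fun n : ℤ => (⟨(n : ℂ), intCast_mem_pairTau _ n⟩ :
    (pairTau UpperHalfPlane.I).lattice))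
    fun a b hab => Int.cast_injective (congrArg Subtype.val hab)
  refine h'.congr fun n => ?_
  simp [add_comm]

/-- Near a point off `ℤ` the distances to the integers stay comparable. -/
theorem exists_closedBall_norm_le {x : ℂ} (hx : ∀ n : ℤ, x + n ≠ 0) :
    ∃ δ > 0, (∀ n : ℤ, 2 * δ ≤ ‖x + n‖) ∧
      ∀ (n : ℤ), ∀ w ∈ Metric.closedBall x δ, ‖x + n‖ ≤ 2 * ‖w + n‖ := by
  obtain ⟨δ, hδ, hd⟩ : ∃ δ > 0, ∀ n : ℤ, 2 * δ ≤ ‖x + n‖ := by
    have hc : IsClosed ((↑) '' (Set.univ : Set ℤ) : Set ℂ) := by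
      simpa using Complex.isometry_intCast.isClosedEmbedding.isClosed_range
    obtain ⟨r, hr, hball⟩ := Metric.isOpen_iff.mp hc.isOpen_compl (-x) (by
      rintro ⟨n, -, hn⟩
      exact hx n (by rw [hn]; ring))
    refine ⟨r / 2, by positivity, fun n => ?_⟩
    by_contra hlt
    refine hball (a := (n : ℂ)) ?_ ⟨n, trivial, rfl⟩
    rw [mem_ball_iff_norm, sub_neg_eq_add, add_comm]
    linarith
  have hle : ∀ (n : ℤ), ∀ w ∈ Metric.closedBall x δ, ‖x + n‖ ≤ 2 * ‖w + n‖ := fun n w hw => by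
    have h1 : ‖x + n‖ - ‖w - x‖ ≤ ‖w + n‖ := by
      have := norm_sub_norm_le (x + n) (-(w - x))
      rwa [norm_neg, sub_neg_eq_add, show x + n + (w - x) = w + n by ring] at this
    linarith [mem_closedBall_iff_norm.mp hw, hd n]
  exact ⟨δ, hδ, hd, hle⟩

theorem continuousAt_rowSum {x : ℂ} (hx : ∀ n : ℤ, x + n ≠ 0) : ContinuousAt rowSum x := by
  have hsum : Summable fun n : ℤ => (8 : ℝ) * ‖((x + n) ^ 3)⁻¹‖ :=
    ((summable_norm_iff (E := ℂ)).mpr (summable_inv_cube x)).mul_left 8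
  obtain ⟨δ, hδ, hd, hle⟩ := exists_closedBall_norm_le hx
  refine ContinuousOn.continuousAt (s := Metric.closedBall x δ)
    (continuousOn_tsum (fun n => ?_) hsum fun n w hw => ?_) (Metric.closedBall_mem_nhds x hδ)
  · refine ContinuousOn.inv₀ (by fun_prop) fun w hw => pow_ne_zero _ fun h0 => ?_
    have h := hle n w hw
    rw [h0, norm_zero] at h
    linarith [hd n]
  · rw [norm_inv, norm_inv, norm_pow, norm_pow]
    have hpos : 0 < ‖x + n‖ := norm_pos_iff.mpr (hx n)
    have h3 : ‖x + n‖ ^ 3 ≤ 8 * ‖w + n‖ ^ 3 := by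
      nlinarith [pow_le_pow_left₀ hpos.le (hle n w hw) 3]
    rw [← div_eq_mul_inv, le_div_iff₀ (by positivity), inv_mul_le_iff₀]
    · linarith
    · nlinarith [hpos, pow_pos hpos 3]

theorem continuousAt_rowClosed {x : ℂ} (hx : ∀ n : ℤ, x + n ≠ 0) : ContinuousAt rowClosed x := by
  have hne : 1 - expTwoPi x ≠ 0 := sub_ne_zero.mpr fun h => by
    obtain ⟨n, hn⟩ := (expTwoPi_eq_one_iff x).mp h.symm
    exact hx (-n) (by simp [hn])
  have hc : Continuous expTwoPi := by unfold expTwoPi; fun_prop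
  have := hc.continuousAt (x := x)
  unfold rowClosed
  fun_prop (disch := exact pow_ne_zero _ hne)

/-- The closed formula off the integers. -/
theorem rowSum_eq {w : ℂ} (hw : ∀ n : ℤ, w + n ≠ 0) : rowSum w = rowClosed w := by
  rcases lt_trichotomy w.im 0 with h | h | h
  · have := rowSum_eq_of_im_pos (w := -w) (by simpa using h)
    rwa [rowSum_neg, rowClosed_neg, neg_inj] at this
  · have hl : Tendsto (fun t : ℝ => w + t * I) (𝓝[>] 0) (𝓝 w) := by
      have hc : Continuous fun t : ℝ => w + t * I := by fun_prop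
      simpa using (hc.tendsto 0).mono_left nhdsWithin_le_nhds
    refine tendsto_nhds_unique ((continuousAt_rowSum hw).tendsto.comp hl)
      (((continuousAt_rowClosed hw).tendsto.comp hl).congr' ?_)
    filter_upwards [self_mem_nhdsWithin] with t ht
    exact (rowSum_eq_of_im_pos (by simpa [h] using ht)).symm
  · exact rowSum_eq_of_im_pos h

theorem norm_rowSum_le {δ : ℝ} (hδ : 0 < δ) :
    ∃ C, 0 ≤ C ∧ ∀ w : ℂ, δ ≤ |w.im| → ‖rowSum w‖ ≤ C * Real.exp (-(2 * π * |w.im|)) := by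
  have hr : Real.exp (-(2 * π * δ)) < 1 := Real.exp_lt_one_iff.mpr (by
    have := mul_pos Real.two_pi_pos hδ; linarith)
  refine ⟨‖((-2 * π * I) ^ 3 / 2 : ℂ)‖ * (2 / (1 - Real.exp (-(2 * π * δ))) ^ 3), by positivity,
    fun w hw => ?_⟩
  wlog hpos : 0 ≤ w.im generalizing w
  · have := this (-w) (by simpa using hw) (by simpa using le_of_not_ge hpos)
    rwa [rowSum_neg, norm_neg, Complex.neg_im, abs_neg] at this
  rw [abs_of_nonneg hpos] at hw ⊢
  rw [rowSum_eq_of_im_pos (lt_of_lt_of_le hδ hw), rowClosed, norm_mul,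
    mul_assoc ‖((-2 * π * I) ^ 3 / 2 : ℂ)‖]
  refine mul_le_mul_of_nonneg_left ?_ (norm_nonneg _)
  rw [norm_div, norm_mul, norm_pow, ← norm_expTwoPi w]
  have he : ‖expTwoPi w‖ ≤ Real.exp (-(2 * π * δ)) := by
    rw [norm_expTwoPi]
    exact Real.exp_le_exp.mpr (by nlinarith [Real.pi_pos])
  have h1 : ‖1 + expTwoPi w‖ ≤ 2 := by
    refine (norm_add_le _ _).trans ?_
    rw [norm_one]; linarith
  have h2 : 1 - Real.exp (-(2 * π * δ)) ≤ ‖1 - expTwoPi w‖ := by
    have := norm_sub_norm_le (1 : ℂ) (expTwoPi w)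
    rw [norm_one] at this; linarith
  calc ‖expTwoPi w‖ * ‖1 + expTwoPi w‖ / ‖1 - expTwoPi w‖ ^ 3
      ≤ ‖expTwoPi w‖ * 2 / (1 - Real.exp (-(2 * π * δ))) ^ 3 := by gcongr
    _ = 2 / (1 - Real.exp (-(2 * π * δ))) ^ 3 * ‖expTwoPi w‖ := by ring

/-! ### Sums of rows and limits -/

/-- `℘'` of `ℤτ + ℤ` is the sum over `m` of its rows `-2 ∑ₙ (z + mτ + n)⁻³`. -/
theorem hasSum_rows (τ : ℍ) (z : ℂ) :
    HasSum (fun m : ℤ => -2 * rowSum (z + m * τ)) (℘'[pairTau τ] z) := by
  have h := (pairTau τ).hasSum_derivWeierstrassP z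
  have h' := (((Equiv.prodCongr (Equiv.neg ℤ) (Equiv.neg ℤ)).trans
    (pairTau τ).latticeEquivProd.symm.toEquiv).hasSum_iff).mpr h
  have hf : (fun l : (pairTau τ).lattice => -2 / (z - l) ^ 3) ∘
      ((Equiv.prodCongr (Equiv.neg ℤ) (Equiv.neg ℤ)).trans
        (pairTau τ).latticeEquivProd.symm.toEquiv)
      = fun mn : ℤ × ℤ => -2 * ((z + mn.1 * τ + mn.2) ^ 3)⁻¹ := by
    funext mn
    simp only [Function.comp_apply, Equiv.trans_apply, LinearEquiv.coe_toEquiv,
      Equiv.prodCongr_apply, Prod.map, Equiv.neg_apply]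
    rw [PeriodPair.latticeEquiv_symm_apply]
    simp only [pairTau, Int.cast_neg, div_eq_mul_inv]
    ring
  rw [hf] at h'
  exact h'.prod_fiberwise fun m => ((summable_inv_cube (z + m * τ)).hasSum).mul_left (-2)

theorem norm_tsum_rows_le {f : ℤ → ℂ} {d : ℤ → ℝ} {C μ t : ℝ} (hC : 0 ≤ C) (ht : 1 ≤ t)
    (hμ1 : μ ≤ 1) (hd : ∀ m, μ ≤ d m ∨ f m = 0) (hd2 : ∀ m, (m.natAbs : ℝ) - 2 ≤ d m)
    (hf : ∀ m, ‖f m‖ ≤ C * Real.exp (-(2 * π * (d m * t))) ∨ f m = 0) :
    ‖∑' m, f m‖ ≤ C * (∑' m : ℤ, Real.exp (2 * π * 3) * Real.exp (-(2 * π * m.natAbs)))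
      * Real.exp (-(2 * π * (μ * t))) := by
  have hs : Summable fun m : ℤ =>
      Real.exp (2 * π * 3) * Real.exp (-(2 * π * m.natAbs)) := by
    refine Summable.mul_left _ ?_
    have hg : Summable fun n : ℕ => Real.exp (-(2 * π * n)) := by
      refine (summable_geometric_of_lt_one (Real.exp_nonneg (-(2 * π)))
        (Real.exp_lt_one_iff.mpr (by linarith [Real.two_pi_pos]))).congr fun n => ?_
      rw [← Real.exp_nat_mul]; ring_nf
    exact Summable.of_nat_of_neg (by simpa using hg) (by simpa using hg)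
  have hb : ∀ m, ‖f m‖ ≤ C * (Real.exp (2 * π * 3) * Real.exp (-(2 * π * m.natAbs)))
      * Real.exp (-(2 * π * (μ * t))) := fun m => by
    by_cases hz : f m = 0
    · rw [hz, norm_zero]; positivity
    refine ((hf m).resolve_right hz).trans ?_
    rw [mul_assoc C, ← Real.exp_add, ← Real.exp_add]
    refine mul_le_mul_of_nonneg_left (Real.exp_le_exp.mpr ?_) hC
    have h1 : μ ≤ d m := (hd m).resolve_right hz
    have h2 : d m - μ ≤ (d m - μ) * t := le_mul_of_one_le_right (by linarith) ht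
    nlinarith [Real.pi_pos, hd2 m]
  have hs' := (hs.mul_left C).mul_right (Real.exp (-(2 * π * (μ * t))))
  refine (tsum_of_norm_bounded hs'.hasSum hb).trans (le_of_eq ?_)
  rw [tsum_mul_right, tsum_mul_left]

/-- The value at a real point tends to the middle row as `τ → i∞`. -/
theorem norm_derivWeierstrassP_real_sub_le (x : ℝ) :
    ∃ K, ∀ τ : ℍ, 1 ≤ τ.im →
      ‖℘'[pairTau τ] (x : ℂ) + 2 * rowSum x‖ ≤ K * Real.exp (-(2 * π * τ.im)) := by
  obtain ⟨C, hC0, hC⟩ := norm_rowSum_le one_pos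
  refine ⟨2 * C * (∑' m : ℤ, Real.exp (2 * π * 3) * Real.exp (-(2 * π * m.natAbs))),
    fun τ hτ => ?_⟩
  have h := (hasSum_rows τ x).update 0 0
  simp only [Int.cast_zero, zero_mul, add_zero] at h
  rw [show (0 : ℂ) - -2 * rowSum x + ℘'[pairTau τ] x = ℘'[pairTau τ] x + 2 * rowSum x by ring] at h
  rw [← h.tsum_eq]
  have key := norm_tsum_rows_le (f := Function.update (fun m : ℤ => -2 * rowSum (x + m * τ)) 0 0)
    (d := fun m => (m.natAbs : ℝ)) (μ := 1) (t := τ.im) (C := 2 * C) (by positivity) hτ le_rfl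
    (fun m => ?_) (fun m => by linarith) (fun m => ?_)
  · simpa using key
  · rcases eq_or_ne m 0 with rfl | hm
    · exact Or.inr (by simp)
    · exact Or.inl (by exact_mod_cast Int.natAbs_pos.mpr hm)
  · rcases eq_or_ne m 0 with rfl | hm
    · exact Or.inr (by simp)
    refine Or.inl ?_
    rw [Function.update_of_ne hm, norm_mul, norm_neg, Complex.norm_two, mul_assoc]
    refine mul_le_mul_of_nonneg_left ?_ two_pos.le
    have him : |((x : ℂ) + m * τ).im| = (m.natAbs : ℝ) * τ.im := by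
      simp [abs_mul, abs_of_pos τ.im_pos, Nat.cast_natAbs]
    have h1 : (1 : ℝ) ≤ m.natAbs := by exact_mod_cast Int.natAbs_pos.mpr hm
    have := hC ((x : ℂ) + m * τ) (by rw [him]; nlinarith)
    rwa [him] at this

/-- Decay at `a τ + b` for `0 < a < 1`. -/
theorem norm_derivWeierstrassP_mul_le {a : ℝ} (ha : 0 < a) (ha' : a < 1) :
    ∃ K, ∀ (b : ℝ) (τ : ℍ), 1 ≤ τ.im →
      ‖℘'[pairTau τ] (a * τ + b : ℂ)‖ ≤ K * Real.exp (-(2 * π * (min a (1 - a) * τ.im))) := by
  have hμ : 0 < min a (1 - a) := lt_min ha (by linarith)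
  obtain ⟨C, hC0, hC⟩ := norm_rowSum_le hμ
  refine ⟨2 * C * (∑' m : ℤ, Real.exp (2 * π * 3) * Real.exp (-(2 * π * m.natAbs))),
    fun b τ hτ => ?_⟩
  rw [← (hasSum_rows τ (a * τ + b)).tsum_eq]
  have hd : ∀ m : ℤ, min a (1 - a) ≤ |a + m| := fun m => by
    rcases le_or_gt 0 m with h | h
    · have : (0 : ℝ) ≤ m := by exact_mod_cast h
      rw [abs_of_pos (by linarith)]; linarith [min_le_left a (1 - a)]
    · have : (m : ℝ) ≤ -1 := by exact_mod_cast Int.le_sub_one_of_lt h
      rw [abs_of_neg (by linarith)]; linarith [min_le_right a (1 - a)]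
  refine norm_tsum_rows_le (d := fun m => |a + m|) (by positivity) hτ
    ((min_le_left _ _).trans ha'.le) (fun m => Or.inl (hd m)) (fun m => ?_) fun m => Or.inl ?_
  · have h := abs_sub_abs_le_abs_sub (m : ℝ) (-a)
    rw [abs_neg, abs_of_pos ha, sub_neg_eq_add, add_comm] at h
    rw [Nat.cast_natAbs, Int.cast_abs]
    linarith
  · rw [norm_mul, norm_neg, Complex.norm_two, mul_assoc]
    refine mul_le_mul_of_nonneg_left ?_ two_pos.le
    have him : |((a : ℂ) * τ + b + m * τ).im| = |a + m| * τ.im := by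
      rw [add_right_comm, ← add_mul]
      simp [abs_mul, abs_of_pos τ.im_pos]
    have := hC ((a : ℂ) * τ + b + m * τ) (by rw [him]; nlinarith [hd m])
    rwa [him] at this

theorem differentiableAt_rowClosed {w : ℂ} (hw : 0 < w.im) : DifferentiableAt ℂ rowClosed w := by
  have hne : 1 - expTwoPi w ≠ 0 := sub_ne_zero.mpr fun h => by
    obtain ⟨n, hn⟩ := (expTwoPi_eq_one_iff w).mp h.symm
    simp [hn] at hw
  have hd : Differentiable ℂ expTwoPi := by unfold expTwoPi; fun_prop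
  have := hd w
  unfold rowClosed
  fun_prop (disch := exact pow_ne_zero _ hne)

theorem differentiableAt_rowSum {w : ℂ} (hw : w.im ≠ 0) : DifferentiableAt ℂ rowSum w := by
  rcases lt_or_gt_of_ne hw with h | h
  · have hev : rowSum =ᶠ[𝓝 w] fun y => -rowClosed (-y) := by
      filter_upwards [(isOpen_lt Complex.continuous_im continuous_const).mem_nhds h] with y hy
      rw [← rowSum_eq_of_im_pos (w := -y) (by simpa using hy), rowSum_neg, neg_neg]
    refine DifferentiableAt.congr_of_eventuallyEq ?_ hev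
    exact ((differentiableAt_rowClosed (w := -w) (by simpa using h)).comp w
      differentiableAt_id.fun_neg).fun_neg
  · refine (differentiableAt_rowClosed h).congr_of_eventuallyEq ?_
    filter_upwards [(isOpen_lt continuous_const Complex.continuous_im).mem_nhds h] with y hy
    exact rowSum_eq_of_im_pos hy

/-- `℘'(x; τ)` is holomorphic in `τ`. -/
theorem mdifferentiable_derivWeierstrassP_real (x : ℝ) :
    MDiff (fun τ : ℍ => ℘'[pairTau τ] (x : ℂ)) := by
  rw [UpperHalfPlane.mdifferentiable_iff]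
  intro w (hw : 0 < w.im)
  obtain ⟨C, hC0, hC⟩ := norm_rowSum_le (δ := w.im / 2) (by positivity)
  set U : Set ℂ := {v | w.im / 2 < v.im}
  have hU : IsOpen U := isOpen_lt continuous_const Complex.continuous_im
  have hpos : ∀ v ∈ U, 0 < v.im := fun v hv => lt_trans (by positivity) hv
  have hne : ∀ (m : ℤ), m ≠ 0 → ∀ v ∈ U, w.im / 2 * m.natAbs ≤ |((x : ℂ) + m * v).im| := by
    intro m hm v hv
    have : |((x : ℂ) + m * v).im| = (m.natAbs : ℝ) * v.im := by
      simp [abs_mul, abs_of_pos (hpos v hv), Nat.cast_natAbs]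
    rw [this]
    nlinarith [show w.im / 2 < v.im from hv]
  -- On `Im v > Im w / 2` the rows decay exponentially in `m`, uniformly.
  have hsum : Summable fun m : ℤ =>
      if m = 0 then ‖-2 * rowSum x‖ else 2 * (C * Real.exp (-(2 * π * (w.im / 2 * m.natAbs)))) := by
    have hg : Summable fun n : ℕ => 2 * (C * Real.exp (-(2 * π * (w.im / 2 * n)))) := by
      refine ((summable_geometric_of_lt_one (Real.exp_nonneg (-(2 * π * (w.im / 2))))
        (Real.exp_lt_one_iff.mpr (by nlinarith [Real.two_pi_pos]))).mul_left C |>.mul_left 2).congr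
        fun n => ?_
      rw [← Real.exp_nat_mul]; ring_nf
    refine (Summable.congr_cofinite (Summable.of_nat_of_neg (f := fun m : ℤ =>
      2 * (C * Real.exp (-(2 * π * (w.im / 2 * m.natAbs))))) (by simpa using hg)
      (by simpa using hg)) ?_)
    filter_upwards [(Set.finite_singleton (0 : ℤ)).compl_mem_cofinite] with m hm
    rw [if_neg (by simpa using hm)]
  -- So the sum of the rows is holomorphic there.
  have hd := differentiableOn_tsum_of_summable_norm hsum
    (F := fun (m : ℤ) (v : ℂ) => -2 * rowSum (x + m * v)) (U := U) (fun m v hv => ?_) hU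
    (fun m v hv => ?_)
  · have hwU : w ∈ U := show w.im / 2 < w.im by linarith
    refine DifferentiableAt.differentiableWithinAt ?_
    refine (hd.differentiableAt (hU.mem_nhds hwU)).congr_of_eventuallyEq ?_
    filter_upwards [hU.mem_nhds hwU] with v hv
    simp only [Function.comp_apply, UpperHalfPlane.ofComplex_apply_of_im_pos (hpos v hv)]
    exact (hasSum_rows ⟨v, hpos v hv⟩ x).tsum_eq.symm
  · refine DifferentiableAt.differentiableWithinAt ?_
    rcases eq_or_ne m 0 with rfl | hm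
    · simp only [Int.cast_zero, zero_mul, add_zero]; fun_prop
    · refine (DifferentiableAt.comp v (differentiableAt_rowSum ?_) (by fun_prop)).const_mul _
      simp [hm, (hpos v hv).ne']
  · rcases eq_or_ne m 0 with rfl | hm
    · simp
    rw [if_neg hm, norm_mul, norm_neg, Complex.norm_two]
    refine mul_le_mul_of_nonneg_left ?_ two_pos.le
    have h1 := hne m hm v hv
    refine (hC _ (le_trans ?_ h1)).trans
      (mul_le_mul_of_nonneg_left (Real.exp_le_exp.mpr (by nlinarith [Real.pi_pos])) hC0)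
    have : (1 : ℝ) ≤ m.natAbs := by exact_mod_cast Int.natAbs_pos.mpr hm
    nlinarith

end Fermat.Agent.Wp
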