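import Mathlib.Analysis.SpecialFunctions.Elliptic.Weierstrass
import Mathlib.Analysis.Normed.Module.Connected

/-!
# The Weierstrass functions: second derivative, local uniqueness

`℘'' = 6℘² - g₂/2`, the local uniqueness statement for second order linear equations
that is used for the addition theorem, and countability of level sets.
-/

noncomputable section

open Filter Topology
open scoped PeriodPair

namespace Fermat.Agent.Wp

variable {L : PeriodPair}

/-- An analytic solution of `E'' = h E` with `E = E' = 0` at a point vanishes near it. -/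
theorem eventually_zero_of_ode {E h : ℂ → ℂ} {a : ℂ} (hE : AnalyticAt ℂ E a)
    (hh : AnalyticAt ℂ h a) (h0 : E a = 0) (h1 : deriv E a = 0)
    (hode : deriv (deriv E) =ᶠ[𝓝 a] fun z => h z * E z) :
    ∀ᶠ z in 𝓝 a, E z = 0 := by
  have ho : analyticOrderAt (deriv (deriv E)) a = analyticOrderAt h a + analyticOrderAt E a := by
    rw [analyticOrderAt_congr hode, ← analyticOrderAt_mul hh hE]
    rfl
  by_contra hne
  have hne' : analyticOrderAt E a ≠ ⊤ := fun ht => hne (analyticOrderAt_eq_top.mp ht)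
  obtain ⟨n, hn⟩ := ENat.ne_top_iff_exists.mp hne'
  have h2 : (2 : ℕ) ≤ analyticOrderAt E a :=
    (natCast_le_analyticOrderAt_iff_iteratedDeriv_eq_zero hE).mpr fun i hi => by
      interval_cases i
      · simpa using h0
      · simpa [iteratedDeriv_one] using h1
  rw [← hn] at h2
  obtain ⟨m, rfl⟩ : ∃ m, n = m + 2 := ⟨n - 2, by have : 2 ≤ n := (by exact_mod_cast h2); omega⟩
  have hd1 : analyticOrderAt (deriv E) a = (m + 1 : ℕ) :=
    analyticOrderAt_deriv_of_pos hE (by rw [← hn]; norm_cast)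
  have hd2 : analyticOrderAt (deriv (deriv E)) a = m :=
    analyticOrderAt_deriv_of_pos hE.deriv (by rw [hd1]; norm_cast)
  rw [hd2, ← hn] at ho
  rcases eq_or_ne (analyticOrderAt h a) ⊤ with ht | ht
  · rw [ht, top_add] at ho
    exact ENat.natCast_ne_top m ho
  · obtain ⟨k, hk⟩ := ENat.ne_top_iff_exists.mp ht
    rw [← hk] at ho
    norm_cast at ho
    omega

theorem countable_lattice (L : PeriodPair) : (L.lattice : Set ℂ).Countable :=
  countable_of_Lindelof_of_discrete (X := L.lattice)

theorem isPreconnected_compl_countable {s : Set ℂ} (hs : s.Countable) : IsPreconnected sᶜ :=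
  (hs.isConnected_compl_of_one_lt_rank (by simp)).isPreconnected

/-- The complement of a lattice is open. -/
theorem isOpen_compl_lattice (L : PeriodPair) : IsOpen (L.lattice : Set ℂ)ᶜ :=
  L.isClosed_lattice.isOpen_compl

theorem exists_notMem_lattice (L : PeriodPair) : ∃ z : ℂ, z ∉ L.lattice :=
  ⟨_, L.ω₁_div_two_notMem_lattice⟩

/-- `z² ℘(z)`, extended analytically to `0`. -/
def numU (L : PeriodPair) (z : ℂ) : ℂ := 1 + z ^ 2 * ℘[L - (0 : ℂ)] z

/-- `z³ ℘'(z)`, extended analytically to `0`. -/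
def numV (L : PeriodPair) (z : ℂ) : ℂ := -2 + z ^ 3 * ℘'[L - (0 : ℂ)] z

theorem analyticAt_numU (L : PeriodPair) : AnalyticAt ℂ (numU L) 0 := by
  unfold numU; fun_prop

theorem analyticAt_numV (L : PeriodPair) : AnalyticAt ℂ (numV L) 0 := by
  unfold numV; fun_prop

@[simp] theorem numU_zero (L : PeriodPair) : numU L 0 = 1 := by simp [numU]

@[simp] theorem numV_zero (L : PeriodPair) : numV L 0 = -2 := by simp [numV]

theorem weierstrassP_eq_numU_div (z : ℂ) (hz : z ≠ 0) : ℘[L] z = numU L z / z ^ 2 := by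
  have h := L.weierstrassPExcept_add 0 z
  simp only [ZeroMemClass.coe_zero, sub_zero] at h
  rw [numU, ← h]
  field_simp
  simp
  ring

theorem derivWeierstrassP_eq_numV_div (z : ℂ) (hz : z ≠ 0) : ℘'[L] z = numV L z / z ^ 3 := by
  have h := L.derivWeierstrassPExcept_sub 0 z
  simp only [ZeroMemClass.coe_zero, sub_zero] at h
  rw [numV, ← h]
  field_simp
  ring

theorem eventually_notMem_lattice (L : PeriodPair) :
    ∀ᶠ z in 𝓝[≠] (0 : ℂ), z ∉ L.lattice := by
  filter_upwards [self_mem_nhdsWithin,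
    mem_nhdsWithin_of_mem_nhds (L.compl_lattice_sdiff_singleton_mem_nhds 0)] with z hz hz'
  exact fun h => hz' ⟨h, hz⟩

theorem weierstrassP_not_eventually_const {z : ℂ} (hz : z ∉ L.lattice) (c : ℂ) :
    ¬ ∀ᶠ w in 𝓝 z, ℘[L] w = c := by
  intro h
  have hE : Set.EqOn ℘[L] (fun _ => c) (L.lattice : Set ℂ)ᶜ :=
    L.analyticOnNhd_weierstrassP.eqOn_of_preconnected_of_eventuallyEq analyticOnNhd_const
      (isPreconnected_compl_countable (countable_lattice L)) hz h
  have h1 : ∀ᶠ w in 𝓝[≠] (0 : ℂ), numU L w = w ^ 2 * c := by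
    filter_upwards [self_mem_nhdsWithin, eventually_notMem_lattice L] with w hw hw'
    have h2 := hE (show w ∈ (L.lattice : Set ℂ)ᶜ from hw')
    rw [weierstrassP_eq_numU_div w hw] at h2
    simp only at h2
    rw [← h2]
    have : w ≠ 0 := hw
    field_simp
  have h2 : Tendsto (numU L) (𝓝[≠] 0) (𝓝 1) :=
    (numU_zero L) ▸ ((analyticAt_numU L).continuousAt.tendsto.mono_left nhdsWithin_le_nhds)
  have h3 : Tendsto (fun w : ℂ => w ^ 2 * c) (𝓝[≠] 0) (𝓝 0) := by
    have : Continuous fun w : ℂ => w ^ 2 * c := by fun_prop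
    simpa using this.continuousAt.tendsto.mono_left (nhdsWithin_le_nhds (a := (0:ℂ)))
  exact one_ne_zero (tendsto_nhds_unique (h2.congr' h1) h3)

/-- Off the lattice the derivative of `℘` is `℘'`. -/
theorem hasDerivAt_weierstrassP {z : ℂ} (hz : z ∉ L.lattice) :
    HasDerivAt ℘[L] (℘'[L] z) z := by
  have h := (L.analyticOnNhd_weierstrassP z hz).differentiableAt.hasDerivAt
  rwa [L.deriv_weierstrassP] at h

/-- Off the lattice `℘'' = 6 ℘² - g₂ / 2`, as a derivative. -/
theorem deriv_derivWeierstrassP {z : ℂ} (hz : z ∉ L.lattice) :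
    deriv ℘'[L] z = 6 * ℘[L] z ^ 2 - L.g₂ / 2 := by
  set U : Set ℂ := (L.lattice : Set ℂ)ᶜ
  have hU : IsPreconnected U := isPreconnected_compl_countable (countable_lattice L)
  have hd' : AnalyticOnNhd ℂ (fun x => deriv ℘'[L] x - (6 * ℘[L] x ^ 2 - L.g₂ / 2)) U :=
    fun x hx => (L.analyticOnNhd_derivWeierstrassP x hx).deriv.fun_sub
      ((analyticAt_const.fun_mul ((L.analyticOnNhd_weierstrassP x hx).fun_pow 2)).fun_sub
        analyticAt_const)
  have hmul : ∀ x ∈ U, ℘'[L] x * (deriv ℘'[L] x - (6 * ℘[L] x ^ 2 - L.g₂ / 2)) = 0 := by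
    intro x hx
    have hev : (fun w => ℘'[L] w ^ 2) =ᶠ[𝓝 x]
        fun w => 4 * ℘[L] w ^ 3 - L.g₂ * ℘[L] w - L.g₃ := by
      filter_upwards [(isOpen_compl_lattice L).mem_nhds hx] with w hw
      exact L.derivWeierstrassP_sq w hw
    have hP := hasDerivAt_weierstrassP (L := L) hx
    have hP' := (L.analyticOnNhd_derivWeierstrassP x hx).differentiableAt.hasDerivAt
    have h1 := (hP'.fun_pow 2).deriv
    have h2 := ((((hP.fun_pow 3).const_mul (4 : ℂ)).fun_sub (hP.const_mul L.g₂)).sub_const
      L.g₃).deriv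
    have h3 := hev.deriv_eq
    rw [h1, h2] at h3
    simp only [Nat.cast_ofNat, Nat.add_one_sub_one, pow_one] at h3
    linear_combination h3 / 2
  rcases AnalyticOnNhd.eq_zero_or_eq_zero_of_mul_eq_zero
      L.analyticOnNhd_derivWeierstrassP hd' hmul hU with h | h
  · exfalso
    obtain ⟨x, hx⟩ := exists_notMem_lattice L
    have hc : ∀ᶠ w in 𝓝 x, ℘[L] w = ℘[L] x := by
      obtain ⟨r, hr, hball⟩ := Metric.mem_nhds_iff.mp ((isOpen_compl_lattice L).mem_nhds hx)
      filter_upwards [Metric.ball_mem_nhds x hr] with w hw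
      refine Metric.isOpen_ball.is_const_of_deriv_eq_zero (convex_ball x r).isPreconnected
        (fun y hy => (hasDerivAt_weierstrassP (hball hy)).differentiableAt.differentiableWithinAt)
        ?_ hw (Metric.mem_ball_self hr)
      intro y hy
      rw [L.deriv_weierstrassP]
      exact h y (hball hy)
    exact weierstrassP_not_eventually_const hx _ hc
  · exact sub_eq_zero.mp (h z hz)

/-- Off the lattice `℘'' = 6℘² - g₂/2`. -/
theorem hasDerivAt_derivWeierstrassP {z : ℂ} (hz : z ∉ L.lattice) :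
    HasDerivAt ℘'[L] (6 * ℘[L] z ^ 2 - L.g₂ / 2) z :=
  deriv_derivWeierstrassP hz ▸ (L.analyticOnNhd_derivWeierstrassP z hz).differentiableAt.hasDerivAt

/-- `℘'` and `℘''` have no common zero outside the lattice. -/
theorem derivWeierstrassP_ne_zero_or {z : ℂ} (hz : z ∉ L.lattice) :
    ℘'[L] z ≠ 0 ∨ 6 * ℘[L] z ^ 2 - L.g₂ / 2 ≠ 0 := by
  by_contra hcon
  simp only [not_or, not_not] at hcon
  obtain ⟨h1, h2⟩ := hcon
  refine weierstrassP_not_eventually_const hz (℘[L] z) ?_
  have hE : AnalyticAt ℂ (fun w => ℘[L] w - ℘[L] z) z :=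
    (L.analyticOnNhd_weierstrassP z hz).fun_sub analyticAt_const
  have hh : AnalyticAt ℂ (fun w => 6 * (℘[L] w + ℘[L] z)) z :=
    analyticAt_const.fun_mul ((L.analyticOnNhd_weierstrassP z hz).fun_add analyticAt_const)
  have hd : deriv (fun w => ℘[L] w - ℘[L] z) = ℘'[L] := by
    funext w; rw [deriv_sub_const_fun, L.deriv_weierstrassP]
  have hode : deriv (deriv fun w => ℘[L] w - ℘[L] z)
      =ᶠ[𝓝 z] fun w => 6 * (℘[L] w + ℘[L] z) * (℘[L] w - ℘[L] z) := by
    filter_upwards [(isOpen_compl_lattice L).mem_nhds hz] with w hw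
    rw [hd, deriv_derivWeierstrassP hw]
    linear_combination h2
  filter_upwards [eventually_zero_of_ode hE hh (sub_self _) (by rw [hd]; exact h1) hode] with w hw
  exact sub_eq_zero.mp hw

/-- A level set of `℘` is countable. -/
theorem countable_preimage_weierstrassP (L : PeriodPair) (c : ℂ) :
    {z : ℂ | z ∉ L.lattice ∧ ℘[L] z = c}.Countable := by
  set S := {z : ℂ | z ∉ L.lattice ∧ ℘[L] z = c}
  have : DiscreteTopology S := by
    refine discreteTopology_subtype_iff.mpr fun z hz => ?_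
    rw [← empty_mem_iff_bot]
    have hA : AnalyticAt ℂ (fun w => ℘[L] w - c) z :=
      (L.analyticOnNhd_weierstrassP z hz.1).fun_sub analyticAt_const
    rcases hA.eventually_eq_zero_or_eventually_ne_zero with h | h
    · exact absurd (h.mono fun w hw => sub_eq_zero.mp hw)
        (weierstrassP_not_eventually_const hz.1 c)
    · rw [mem_inf_principal]
      filter_upwards [h] with w hw hwS
      exact hw (sub_eq_zero.mpr hwS.2)
  exact countable_of_Lindelof_of_discrete (X := S)

end Fermat.Agent.Wp
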